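/-
S17 project (architect helper4498) — shared top-level definitions (FROZEN, v1).
-/
import Mathlib
import Fermat.Statements.S17
import Fermat.Prelude.Def_AlgebraicCurve_IsCurveOver
import Fermat.Prelude.Def_AlgebraicCurve_Repartitions

set_option autoImplicit false

open ModularCurve AlgebraicCurve

namespace Fermat.Agent.S17

/-- The absolute Galois group of `ℚ`. -/
abbrev GQ : Type := (AlgebraicClosure ℚ) ≃ₐ[ℚ] (AlgebraicClosure ℚ)

/-- The function field over `ℚ̄` attached to `F₀ ⊆ ℚ((q))`. -/
abbrev FBar (F₀ : IntermediateField ℚ (LaurentSeries ℚ)) : Type :=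
  ↥(laurentBaseChange (AlgebraicClosure ℚ) F₀)

/-- The Mordell–Weil group: Galois-fixed classes of `Pic⁰`. -/
abbrev MW (F₀ : IntermediateField ℚ (LaurentSeries ℚ)) : Type :=
  ↥(FixedPoints.addSubgroup GQ (Pic0 (AlgebraicClosure ℚ) (FBar F₀)))

/-- The statement of S27 (torsion count for EVERY function field over an algebraically closed
field of characteristic zero), in `Type 0`.  It is a HYPOTHESIS of the W and DIV packages and is
discharged at the very end by `Fermat.Agent.S27.result`. -/
def S27Hyp : Prop :=
  ∀ (K F : Type) [Field K] [Field F] [Algebra K F] [IsAlgClosed K] [CharZero K]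
    [IsCurveOver K F] [Algebra.EssFiniteType K F] (ℓ : ℕ) [Fact ℓ.Prime] (k : ℕ),
    Nat.card (Pic0.torsion K F (ℓ ^ k)) = ℓ ^ (2 * genusFF K F * k)

end Fermat.Agent.S17
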