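/-
Finiteness of the Selmer groups `K(S, n)` of a number field (Mathlib only).

`IsDedekindDomain.selmerGroup` is defined in Mathlib, but its finiteness is a stated TODO there.
This file proves it for every Dedekind domain with finite class group and finitely generated unit
group, in particular for rings of integers of number fields.  It is the last step (W6) of the
elementary weak Mordell-Weil argument for `JZero N`
(notes/MAZUR_S17_scout_helper5016.md): the Kummer classes `f_t(D)` land in `K(S, 2)`.

Main results (all in namespace `Fermat.Agent.S17.SelmerFinite`):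
* `finite_selmerGroup_empty` : `K(∅, n)` is finite.
* `finite_selmerGroup`       : `K(S, n)` is finite for finite `S` and `0 < n`.
* `finite_selmerGroup_numberField` : the same for `R = 𝓞 K`, `K` a number field.
* `finite_setOf_valuation_dvd_numberField` : the set of classes `x ∈ Kˣ/(Kˣ)ⁿ` whose valuations
  are divisible by `n` outside `S` is finite (set form, convenient for consumers).
-/
import Mathlib.RingTheory.DedekindDomain.SelmerGroup
import Mathlib.RingTheory.DedekindDomain.Factorization
import Mathlib.RingTheory.ClassGroup.Basic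
import Mathlib.GroupTheory.FiniteAbelian.Basic
import Mathlib.NumberTheory.NumberField.ClassNumber
import Mathlib.NumberTheory.NumberField.Units.DirichletTheorem

set_option autoImplicit false

namespace Fermat.Agent.S17.SelmerFinite

open IsDedekindDomain IsDedekindDomain.HeightOneSpectrum nonZeroDivisors

variable {R : Type*} [CommRing R] [IsDedekindDomain R] {K : Type*} [Field K] [Algebra R K]
  [IsFractionRing R K]

/-- If the class of `x` has trivial `v`-adic valuation mod `n`, then `n` divides the valuation. -/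
theorem dvd_toAdd_of_valuationOfNeZeroMod_eq_one (v : HeightOneSpectrum R) (n : ℕ) (x : Kˣ)
    (h : v.valuationOfNeZeroMod n
      (QuotientGroup.mk x : Kˣ ⧸ (powMonoidHom n : Kˣ →* Kˣ).range) = 1) :
    (n : ℤ) ∣ Multiplicative.toAdd (v.valuationOfNeZero x) := by
  have h2 : (Int.quotientZMultiplesNatEquivZMod n)
      (QuotientAddGroup.mk (Multiplicative.toAdd (v.valuationOfNeZero x))) = 0 := h
  rw [map_eq_zero_iff _ (Int.quotientZMultiplesNatEquivZMod n).injective,
    QuotientAddGroup.eq_zero_iff, AddSubgroup.mem_zmultiples_iff] at h2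
  obtain ⟨k, hk⟩ := h2
  exact ⟨k, by rw [← hk]; simp [mul_comm]⟩

open FractionalIdeal in
/-- A nonzero element all of whose valuations are divisible by `n` generates an `n`-th power
of a fractional ideal. -/
theorem exists_pow_eq_spanSingleton (n : ℕ) (x : Kˣ)
    (h : ∀ v : HeightOneSpectrum R, (n : ℤ) ∣ Multiplicative.toAdd (v.valuationOfNeZero x)) :
    ∃ J : FractionalIdeal R⁰ K, J ^ n = spanSingleton R⁰ (x : K) := by
  classical
  set r : R := (IsLocalization.sec R⁰ (x : K)).1 with hr
  set s : R⁰ := (IsLocalization.sec R⁰ (x : K)).2 with hs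
  have hr0 : r ≠ 0 := IsLocalization.sec_fst_ne_zero x.ne_zero
  have hx : IsLocalization.mk' K r s = (x : K) := IsLocalization.mk'_sec K (x : K)
  set e : HeightOneSpectrum R → ℤ := fun v =>
    ((Associates.mk v.asIdeal).count (Associates.mk (Ideal.span {r} : Ideal R)).factors : ℤ) -
      (Associates.mk v.asIdeal).count (Associates.mk (Ideal.span {(s : R)} : Ideal R)).factors
    with he
  have hval : ∀ v : HeightOneSpectrum R,
      Multiplicative.toAdd (v.valuationOfNeZero x) = - e v := by
    intro v
    change (-((Associates.mk v.asIdeal).count (Associates.mk (Ideal.span {r} : Ideal R)).factors : ℤ) -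
      (-((Associates.mk v.asIdeal).count
        (Associates.mk (Ideal.span {(s : R)} : Ideal R)).factors : ℤ))) = - e v
    simp only [he]; ring
  have hdvd : ∀ v, (n : ℤ) ∣ e v := fun v => by
    have := h v
    rw [hval v] at this
    exact (dvd_neg.mp this)
  have hprod : ∏ᶠ v : HeightOneSpectrum R, (v.asIdeal : FractionalIdeal R⁰ K) ^ (e v) =
      spanSingleton R⁰ (x : K) := by
    rw [← hx]
    exact finprod_heightOneSpectrum_factorization_principal_fraction hr0 s
  have h0 : spanSingleton R⁰ (IsLocalization.mk' K r s) ≠ 0 := by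
    rw [hx, spanSingleton_ne_zero_iff]; exact x.ne_zero
  have hI : spanSingleton R⁰ (IsLocalization.mk' K r s) =
      spanSingleton R⁰ ((algebraMap R K) s)⁻¹ * ↑(Ideal.span {r} : Ideal R) := by
    rw [coeIdeal_span_singleton, spanSingleton_mul_spanSingleton]
    apply congr_arg
    rw [IsFractionRing.mk'_eq_div, div_eq_mul_inv, mul_comm]
  have hfin : {v : HeightOneSpectrum R | e v ≠ 0}.Finite := by
    have := FractionalIdeal.finite_factors' h0 hI
    rw [Filter.eventually_cofinite] at this
    exact this
  refine ⟨∏ᶠ v : HeightOneSpectrum R, (v.asIdeal : FractionalIdeal R⁰ K) ^ (e v / (n : ℤ)), ?_⟩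
  rw [← hprod]
  have hsupp : (Function.mulSupport fun v : HeightOneSpectrum R =>
      (v.asIdeal : FractionalIdeal R⁰ K) ^ (e v / (n : ℤ))).Finite := by
    refine hfin.subset ?_
    intro v hv
    simp only [Function.mem_mulSupport] at hv
    intro hev
    apply hv
    rw [hev]
    simp
  rw [finprod_pow hsupp]
  refine finprod_congr fun v => ?_
  rw [← zpow_natCast, ← zpow_mul, Int.ediv_mul_cancel (hdvd v)]

open FractionalIdeal in
/-- If `(x) = I ^ n`, `(y) = J ^ n` and `I`, `J` have the same ideal class, then `x / y` is a unit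
times an `n`-th power. -/
theorem exists_unit_mul_pow_of_classGroup_eq (n : ℕ) (x y : Kˣ)
    (I J : (FractionalIdeal R⁰ K)ˣ)
    (hI : (I : FractionalIdeal R⁰ K) ^ n = spanSingleton R⁰ (x : K))
    (hJ : (J : FractionalIdeal R⁰ K) ^ n = spanSingleton R⁰ (y : K))
    (hc : ClassGroup.mk K I = ClassGroup.mk K J) :
    ∃ (u : Rˣ) (d : Kˣ), x = Units.map (algebraMap R K : R →* K) u * y * d ^ n := by
  have h1 : ClassGroup.mk K (I * J⁻¹) = 1 := by
    rw [map_mul, map_inv, hc, mul_inv_cancel]
  rw [ClassGroup.mk_eq_one_iff, FractionalIdeal.isPrincipal_iff] at h1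
  obtain ⟨d, hd⟩ := h1
  have hd0 : d ≠ 0 := by
    rintro rfl
    rw [spanSingleton_zero] at hd
    exact (I * J⁻¹).ne_zero hd
  have hIJ : (I : FractionalIdeal R⁰ K) = (J : FractionalIdeal R⁰ K) * spanSingleton R⁰ d := by
    rw [← hd, Units.val_mul, mul_comm, mul_assoc, ← Units.val_mul, inv_mul_cancel, Units.val_one,
      mul_one]
  have hxy : spanSingleton R⁰ (y * d ^ n : K) = spanSingleton R⁰ (x : K) := by
    rw [← hI, hIJ, mul_pow, hJ, spanSingleton_pow, spanSingleton_mul_spanSingleton]
  rw [spanSingleton_eq_spanSingleton] at hxy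
  obtain ⟨z, hz⟩ := hxy
  refine ⟨z, Units.mk0 d hd0, ?_⟩
  ext
  simp only [Units.val_mul, Units.coe_map, MonoidHom.coe_coe, Units.val_pow_eq_pow_val,
    Units.val_mk0]
  rw [← hz, Units.smul_def, Algebra.smul_def, mul_assoc]

omit [IsDedekindDomain R] [IsFractionRing R K] in
/-- The image of the units of `R` in `Kˣ / (Kˣ)ⁿ` is finite when `Rˣ` is finitely generated. -/
theorem finite_range_units_mod_pow [Group.FG Rˣ] (n : ℕ) (hn : 0 < n) :
    (Set.range fun u : Rˣ => (QuotientGroup.mk (Units.map (algebraMap R K : R →* K) u) :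
      Kˣ ⧸ (powMonoidHom n : Kˣ →* Kˣ).range)).Finite := by
  have : (powMonoidHom n : Rˣ →* Rˣ).range.FiniteIndex :=
    Subgroup.finiteIndex_range_powMonoidHom_of_fg Rˣ hn.ne'
  have : Finite (Rˣ ⧸ (powMonoidHom n : Rˣ →* Rˣ).range) :=
    Subgroup.finite_quotient_of_finiteIndex
  let g : Rˣ ⧸ (powMonoidHom n : Rˣ →* Rˣ).range →* Kˣ ⧸ (powMonoidHom n : Kˣ →* Kˣ).range :=
    QuotientGroup.map _ _ (Units.map (algebraMap R K : R →* K)) (by
      rintro _ ⟨w, rfl⟩
      exact ⟨Units.map (algebraMap R K : R →* K) w, by simp⟩)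
  refine (Set.finite_range g).subset ?_
  rintro _ ⟨u, rfl⟩
  exact ⟨QuotientGroup.mk u, rfl⟩

open FractionalIdeal in
/-- `K(∅, n)` is finite for a Dedekind domain with finite class group and finitely generated
unit group. -/
theorem finite_selmerGroup_empty [Finite (ClassGroup R)] [Group.FG Rˣ] (n : ℕ) (hn : 0 < n) :
    Finite (selmerGroup (R := R) (K := K) (S := (∅ : Set (HeightOneSpectrum R))) (n := n)) := by
  classical
  have hUfin := finite_range_units_mod_pow (R := R) (K := K) n hn
  -- the pieces
  let A : ClassGroup R → Set (Kˣ ⧸ (powMonoidHom n : Kˣ →* Kˣ).range) := fun k => {y | ∃ (x : Kˣ) (I : (FractionalIdeal R⁰ K)ˣ),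
    (QuotientGroup.mk x : Kˣ ⧸ (powMonoidHom n : Kˣ →* Kˣ).range) = y ∧ (I : FractionalIdeal R⁰ K) ^ n = spanSingleton R⁰ (x : K) ∧
      ClassGroup.mk K I = k}
  have hA : ∀ k, (A k).Finite := by
    intro k
    by_cases hne : (A k).Nonempty
    · obtain ⟨y₀, x₀, I₀, hx₀, hI₀, hk₀⟩ := hne
      refine (hUfin.image (fun w => w * y₀)).subset ?_
      rintro y ⟨x, I, hx, hI, hk⟩
      obtain ⟨u, d, hud⟩ := exists_unit_mul_pow_of_classGroup_eq n x x₀ I I₀ hI hI₀ (hk.trans hk₀.symm)
      refine ⟨QuotientGroup.mk (Units.map (algebraMap R K : R →* K) u), ⟨u, rfl⟩, ?_⟩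
      subst hx hx₀
      change (QuotientGroup.mk (Units.map (algebraMap R K : R →* K) u * x₀) :
        Kˣ ⧸ (powMonoidHom n : Kˣ →* Kˣ).range) = QuotientGroup.mk x
      rw [QuotientGroup.eq]
      refine ⟨d, ?_⟩
      change d ^ n = _
      rw [hud, inv_mul_cancel_left]
    · rw [Set.not_nonempty_iff_eq_empty] at hne
      rw [hne]
      exact Set.finite_empty
  have hcover : ((selmerGroup (R := R) (K := K) (S := (∅ : Set (HeightOneSpectrum R)))
      (n := n) : Subgroup (Kˣ ⧸ (powMonoidHom n : Kˣ →* Kˣ).range)) : Set _) ⊆ ⋃ k, A k := by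
    intro y hy
    obtain ⟨x, rfl⟩ := QuotientGroup.mk_surjective y
    have hdvd : ∀ v : HeightOneSpectrum R,
        (n : ℤ) ∣ Multiplicative.toAdd (v.valuationOfNeZero x) := fun v =>
      dvd_toAdd_of_valuationOfNeZeroMod_eq_one v n x (hy v (Set.notMem_empty v))
    obtain ⟨J, hJ⟩ := exists_pow_eq_spanSingleton n x hdvd
    have hJ0 : J ≠ 0 := by
      rintro rfl
      rw [zero_pow hn.ne'] at hJ
      exact (spanSingleton_ne_zero_iff.mpr x.ne_zero) hJ.symm
    exact Set.mem_iUnion.mpr ⟨ClassGroup.mk K (Units.mk0 J hJ0), x, Units.mk0 J hJ0, rfl, hJ, rfl⟩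
  exact ((Set.finite_iUnion hA).subset hcover).to_subtype

/-- `K(S, n)` is finite for a Dedekind domain with finite class group and finitely generated
unit group, `S` finite and `0 < n`. -/
theorem finite_selmerGroup [Finite (ClassGroup R)] [Group.FG Rˣ]
    (S : Set (HeightOneSpectrum R)) (hS : S.Finite) (n : ℕ) (hn : 0 < n) :
    Finite (selmerGroup (R := R) (K := K) (S := S) (n := n)) := by
  classical
  have : Finite S := hS.to_subtype
  have : NeZero n := ⟨hn.ne'⟩
  have h0 : Finite (selmerGroup (R := R) (K := K) (S := (∅ : Set (HeightOneSpectrum R)))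
      (n := n)) := finite_selmerGroup_empty n hn
  let f := selmerGroup.valuation (R := R) (K := K) (S := S) (n := n)
  have hker : Finite f.ker := by
    have hk : f.ker = (selmerGroup (R := R) (K := K) (S := (∅ : Set (HeightOneSpectrum R)))
        (n := n)).subgroupOf (selmerGroup (R := R) (K := K) (S := S) (n := n)) :=
      selmerGroup.valuation_ker_eq
    rw [hk]
    refine Finite.of_injective (fun x : ↥((selmerGroup (R := R) (K := K)
        (S := (∅ : Set (HeightOneSpectrum R))) (n := n)).subgroupOf
        (selmerGroup (R := R) (K := K) (S := S) (n := n))) =>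
      (⟨x.1.1, x.2⟩ : selmerGroup (R := R) (K := K) (S := (∅ : Set (HeightOneSpectrum R)))
        (n := n))) ?_
    intro a b hab
    have h3 := congrArg Subtype.val hab
    exact Subtype.ext (Subtype.ext h3)
  have hquot : Finite (selmerGroup (R := R) (K := K) (S := S) (n := n) ⧸ f.ker) :=
    Finite.of_injective (QuotientGroup.kerLift f) (QuotientGroup.kerLift_injective f)
  exact Finite.of_equiv _ (Subgroup.groupEquivQuotientProdSubgroup (s := f.ker)).symm

section NumberField

open NumberField

variable (K' : Type*) [Field K'] [NumberField K']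

/-- `K(S, n)` is finite for a number field `K`, a finite set `S` of primes and `0 < n`. -/
theorem finite_selmerGroup_numberField (S : Set (HeightOneSpectrum (𝓞 K'))) (hS : S.Finite)
    (n : ℕ) (hn : 0 < n) :
    Finite (selmerGroup (R := 𝓞 K') (K := K') (S := S) (n := n)) := by
  have : Group.FG (𝓞 K')ˣ := Group.fg_iff_monoid_fg.mpr inferInstance
  exact finite_selmerGroup S hS n hn

/-- Set form: the classes in `Kˣ / (Kˣ)ⁿ` of elements whose valuation is divisible by `n` at every
prime outside the finite set `S` form a finite set. -/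
theorem finite_setOf_valuation_dvd_numberField (S : Set (HeightOneSpectrum (𝓞 K')))
    (hS : S.Finite) (n : ℕ) (hn : 0 < n) :
    {y : K'ˣ ⧸ (powMonoidHom n : K'ˣ →* K'ˣ).range | ∃ x : K'ˣ, QuotientGroup.mk x = y ∧
      ∀ v : HeightOneSpectrum (𝓞 K'), v ∉ S →
        (n : ℤ) ∣ Multiplicative.toAdd (v.valuationOfNeZero x)}.Finite := by
  have hfin := finite_selmerGroup_numberField K' S hS n hn
  refine (Set.toFinite (selmerGroup (R := 𝓞 K') (K := K') (S := S) (n := n) :
    Set (K'ˣ ⧸ (powMonoidHom n : K'ˣ →* K'ˣ).range))).subset ?_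
  rintro _ ⟨x, rfl, hx⟩
  intro v hv
  have h2 : (Int.quotientZMultiplesNatEquivZMod n)
      (QuotientAddGroup.mk (Multiplicative.toAdd (v.valuationOfNeZero x))) = 0 := by
    rw [map_eq_zero_iff _ (Int.quotientZMultiplesNatEquivZMod n).injective,
      QuotientAddGroup.eq_zero_iff, AddSubgroup.mem_zmultiples_iff]
    obtain ⟨k, hk⟩ := hx v hv
    exact ⟨k, by rw [hk]; simp [mul_comm]⟩
  exact h2

end NumberField

end Fermat.Agent.S17.SelmerFinite
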