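/-
S17 project (architect helper4498) — TOP-LEVEL WIRING (v2, 04:25 UTC).  NO sorry in this file.

`result` (in `Fermat/Agent/S17.lean`) is proved from the two package exports
  * `WC.weakMW_main`     (packages WA, WB, WC; skeleton of helper5016)
  * `QF.exists_height_H` (packages HT, INC, CERT, QF, FND; skeletons of helper2014 / helper636 /
                          helper5916 / helper8457)
and from DONE inputs:
  * S27 (LANDED on main 04:00): `Fermat.Agent.S27.result`
  * DIV (DONE, helper6746, on top of the landed S27): `S27.Div6746.pic0_divisible_of_isCurveOver`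
  * BR  (DONE): `BR.isCurveOver_modular`, `BR.essFiniteType_modular` (helper4234),
                `BR.H1236.exists_fixing_pic0` (open stabilisers, helper1236).
Statements are for a GENERAL arithmetic curve `F₀ ⊆ ℚ((q))`; nothing modular is used after BR.
-/
import Fermat.Agent.S17.Defs
import Fermat.Agent.S17.BR.Curve
import Fermat.Agent.S17.BR.Stab1236
import Fermat.Agent.S17.WC.Skel
import Fermat.Agent.S17.QF.Skel
import Fermat.Agent.S27
import Fermat.Agent.S27.Div6746.Main

set_option autoImplicit false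

open ModularCurve AlgebraicCurve

namespace Fermat.Agent.S17

/-- S27 (landed). -/
theorem s27Hyp : S27Hyp := fun K F _ _ _ _ _ _ _ ℓ _ k => Fermat.Agent.S27.result K F ℓ k

/-- S27 for `ℓ = 2`, `k = 1`, in the form used by the W packages. -/
theorem torsionCountTwo (K : Type) [Field K] [IsAlgClosed K] [CharZero K] :
    W.TorsionCountTwo K := by
  intro F' _ _ _ _
  haveI : Fact (Nat.Prime 2) := ⟨Nat.prime_two⟩
  have h := Fermat.Agent.S27.result K F' 2 1
  simpa using h

/-- Package DIV (DONE, helper6746). -/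
theorem divisibleTwo (K : Type) [Field K] [IsAlgClosed K] [CharZero K] :
    W.DivisibleTwo K := by
  intro F' _ _ _ _ c
  exact Fermat.Agent.S27.Div6746.pic0_divisible_of_isCurveOver K F' 2 (by norm_num) c

/-- Package BR (DONE, helper1236): open stabilisers. -/
theorem openStabilisers (F₀ : IntermediateField ℚ (LaurentSeries ℚ))
    [IsCurveOver (AlgebraicClosure ℚ) (FBar F₀)]
    [Algebra.EssFiniteType (AlgebraicClosure ℚ) (FBar F₀)] :
    W.OpenStabilisers F₀ :=
  fun x => BR.H1236.exists_fixing_pic0 F₀ x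

/-- Packages WA/WB/WC: weak Mordell–Weil (`MW / 2 MW` finite). -/
theorem weakMW (F₀ : IntermediateField ℚ (LaurentSeries ℚ))
    [IsCurveOver (AlgebraicClosure ℚ) (FBar F₀)]
    [Algebra.EssFiniteType (AlgebraicClosure ℚ) (FBar F₀)] :
    (nsmulAddMonoidHom (α := MW F₀) 2).range.FiniteIndex :=
  WC.weakMW_main F₀ (torsionCountTwo _) (divisibleTwo _) (openStabilisers F₀)

/-- Packages QF/INC/CERT/HT: a nonnegative quasi-quadratic Northcott height on `MW`. -/
theorem exists_height (F₀ : IntermediateField ℚ (LaurentSeries ℚ))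
    [IsCurveOver (AlgebraicClosure ℚ) (FBar F₀)]
    [Algebra.EssFiniteType (AlgebraicClosure ℚ) (FBar F₀)] :
    ∃ h : MW F₀ → ℝ, (∀ x, 0 ≤ h x) ∧
      (∃ C : ℝ, ∀ x y, |h (x + y) + h (x - y) - 2 * (h x + h y)| ≤ C) ∧
      (∀ B : ℝ, {x | h x ≤ B}.Finite) :=
  QF.exists_height_H F₀

theorem mw_fg (F₀ : IntermediateField ℚ (LaurentSeries ℚ))
    [IsCurveOver (AlgebraicClosure ℚ) (FBar F₀)]
    [Algebra.EssFiniteType (AlgebraicClosure ℚ) (FBar F₀)] :
    AddGroup.FG (MW F₀) := by
  obtain ⟨h, h0, ⟨C, hC⟩, hB⟩ := exists_height F₀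
  haveI : Northcott h := ⟨hB⟩
  exact AddCommGroup.fg_of_descent' (weakMW F₀) h0 hC

end Fermat.Agent.S17
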